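import Mathlib
import Fermat.Prelude.Def_GaloisRep_CompletionBridge

/-!
# S56 / W1 / Kill / Dense : the local Galois group is dense in the decomposition group

`ι = padicEmbedding q : ℚ̄ → Ω = PadicAlgCl q`, `P = padicPlace q`, `r = localGaloisToGlobal q`.
The Prelude proves `r τ ∈ D_P` (`localGaloisToGlobal_mem_decompositionSubgroup`).  Conversely:

* `kill_exists_local_lift_apply` : for `σ ∈ D_P` and `x ∈ ℚ̄` there is `τ ∈ Gal(Ω/ℚ_q)` with
  `r τ x = σ x`;
* `kill_exists_local_lift` : for `σ ∈ D_P` and `F/ℚ` finite there is `τ` with `r τ = σ` on `F`.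

Proof: `α = ι x` and `α' = ι (σ x)` are conjugate over `ℚ_q`: if `g = minpoly ℚ_q α` had
`g(α') ≠ 0`, approximate `g` by `h ∈ ℚ[X]`; then `y = h(x) / q ^ N` lies in `P` (`‖h(α)‖` is small)
but `σ y` does not (`‖h(α')‖ ≈ ‖g(α')‖`).
-/

set_option autoImplicit false

open Polynomial
open scoped Pointwise

namespace Fermat.Agent.S56

variable (q : ℕ) [Fact q.Prime]

local notation "Ω" => PadicAlgCl q
local notation "Qb" => AlgebraicClosure ℚ

/-- `‖q‖ = 1/q` in `PadicAlgCl q`. -/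
lemma kill_norm_q : ‖(q : Ω)‖ = (q : ℝ)⁻¹ := by
  have h : (q : Ω) = algebraMap ℚ_[q] Ω (q : ℚ_[q]) := (map_natCast _ q).symm
  rw [h]
  have := PadicAlgCl.norm_extends q (q : ℚ_[q])
  rw [this, Padic.norm_p]

lemma kill_norm_q_pos : 0 < ‖(q : Ω)‖ := by
  rw [kill_norm_q]
  exact inv_pos.2 (Nat.cast_pos.2 (Fact.out : q.Prime).pos)

lemma kill_norm_q_lt_one : ‖(q : Ω)‖ < 1 := by
  rw [kill_norm_q]
  exact inv_lt_one_of_one_lt₀ (Nat.one_lt_cast.2 (Fact.out : q.Prime).one_lt)

/-- Approximation of a polynomial over `ℚ_q` by a polynomial over `ℚ`, at two points. -/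
lemma kill_exists_approx (g : ℚ_[q][X]) (α α' : Ω) {ε : ℝ} (hε : 0 < ε) :
    ∃ h : ℚ[X], ‖aeval α g - aeval α h‖ < ε ∧ ‖aeval α' g - aeval α' h‖ < ε := by
  classical
  set d := g.natDegree with hd
  set B : ℝ := max 1 (max ‖α‖ ‖α'‖) with hB
  have hB1 : 1 ≤ B := le_max_left _ _
  have hBpos : 0 < B := lt_of_lt_of_le one_pos hB1
  have hαB : ‖α‖ ≤ B := le_trans (le_max_left _ _) (le_max_right _ _)
  have hα'B : ‖α'‖ ≤ B := le_trans (le_max_right _ _) (le_max_right _ _)
  set η : ℝ := ε / ((d + 1) * B ^ d) with hη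
  have hden : 0 < ((d : ℝ) + 1) * B ^ d := mul_pos (by positivity) (pow_pos hBpos d)
  have hηpos : 0 < η := div_pos hε hden
  choose r hr using fun i : ℕ => Padic.rat_dense q (g.coeff i) hηpos
  refine ⟨∑ i ∈ Finset.range (d + 1), C (r i) * X ^ i, ?_, ?_⟩
  all_goals
    rw [aeval_eq_sum_range, map_sum, ← Finset.sum_sub_distrib]
    refine lt_of_le_of_lt (norm_sum_le _ _) ?_
    have hterm : ∀ i ∈ Finset.range (d + 1), ∀ β : Ω, ‖β‖ ≤ B →
        ‖g.coeff i • β ^ i - aeval β (C (r i) * X ^ i : ℚ[X])‖ < η * B ^ d := by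
      intro i hi β hβ
      have hi' : i ≤ d := Nat.lt_succ_iff.1 (Finset.mem_range.1 hi)
      have e : g.coeff i • β ^ i - aeval β (C (r i) * X ^ i : ℚ[X]) =
          algebraMap ℚ_[q] Ω (g.coeff i - (r i : ℚ_[q])) * β ^ i := by
        rw [map_mul, aeval_C, map_pow, aeval_X, Algebra.smul_def, map_sub, sub_mul]
        congr 2
      rw [e, norm_mul, norm_pow]
      have h1 : ‖algebraMap ℚ_[q] Ω (g.coeff i - (r i : ℚ_[q]))‖ < η := by
        have := PadicAlgCl.norm_extends q (g.coeff i - (r i : ℚ_[q]))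
        rw [this]
        exact hr i
      have h2 : ‖β‖ ^ i ≤ B ^ d :=
        le_trans (pow_le_pow_left₀ (norm_nonneg _) hβ i) (pow_le_pow_right₀ hB1 hi')
      calc ‖algebraMap ℚ_[q] Ω (g.coeff i - (r i : ℚ_[q]))‖ * ‖β‖ ^ i
          ≤ ‖algebraMap ℚ_[q] Ω (g.coeff i - (r i : ℚ_[q]))‖ * B ^ d :=
            mul_le_mul_of_nonneg_left h2 (norm_nonneg _)
        _ < η * B ^ d := mul_lt_mul_of_pos_right h1 (pow_pos hBpos d)
    have hsum : ∀ β : Ω, ‖β‖ ≤ B →
        ∑ i ∈ Finset.range (d + 1), ‖g.coeff i • β ^ i - aeval β (C (r i) * X ^ i : ℚ[X])‖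
          < ε := by
      intro β hβ
      have h3 : ∑ i ∈ Finset.range (d + 1),
          ‖g.coeff i • β ^ i - aeval β (C (r i) * X ^ i : ℚ[X])‖
          < ∑ _i ∈ Finset.range (d + 1), η * B ^ d :=
        Finset.sum_lt_sum_of_nonempty ⟨0, Finset.mem_range.2 (Nat.succ_pos d)⟩
          (fun i hi => hterm i hi β hβ)
      rw [Finset.sum_const, Finset.card_range, nsmul_eq_mul] at h3
      have e2 : ((d + 1 : ℕ) : ℝ) * (η * B ^ d) = ε := by
        rw [hη]
        push_cast
        field_simp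
      rw [e2] at h3
      exact h3
    first
    | exact hsum α hαB
    | exact hsum α' hα'B

/-- **Density, pointwise**: for `σ` in the decomposition group of `padicPlace q` and `x ∈ ℚ̄`
there is a local automorphism `τ` with `r τ x = σ x`. -/
theorem kill_exists_local_lift_apply (σ : Qb ≃ₐ[ℚ] Qb)
    (hσ : σ ∈ (padicPlace q).decompositionSubgroup ℚ) (x : Qb) :
    ∃ τ : Ω ≃ₐ[ℚ_[q]] Ω, localGaloisToGlobal q τ x = σ x := by
  classical
  set ι := padicEmbedding q with hι
  set α : Ω := ι x with hα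
  set α' : Ω := ι (σ x) with hα'
  have hαalg : IsAlgebraic ℚ_[q] α := Algebra.IsAlgebraic.isAlgebraic α
  -- `σ` preserves `P`
  have hP : ∀ y : Qb, y ∈ padicPlace q → σ y ∈ padicPlace q := by
    intro y hy
    have h1 : σ • padicPlace q = padicPlace q := hσ
    have h2 : σ • y ∈ σ • padicPlace q := ValuationSubring.smul_mem_pointwise_smul σ y _ hy
    rw [h1] at h2
    exact h2
  have key : aeval α' (minpoly ℚ_[q] α) = 0 := by
    by_contra hne
    set g := minpoly ℚ_[q] α with hg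
    have hδ : 0 < ‖aeval α' g‖ := norm_pos_iff.2 hne
    obtain ⟨N, hN⟩ := exists_pow_lt_of_lt_one (half_pos hδ) (kill_norm_q_lt_one q)
    have hεpos : 0 < ‖(q : Ω)‖ ^ N := pow_pos (kill_norm_q_pos q) N
    obtain ⟨h, h1, h2⟩ := kill_exists_approx q g α α' hεpos
    have hgα : aeval α g = 0 := minpoly.aeval _ _
    rw [hgα, zero_sub, norm_neg] at h1
    have h3 : ‖(q : Ω)‖ ^ N < ‖aeval α' h‖ := by
      have h4 : ‖aeval α' g‖ ≤ ‖aeval α' g - aeval α' h‖ + ‖aeval α' h‖ := by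
        have := norm_add_le (aeval α' g - aeval α' h) (aeval α' h)
        rwa [sub_add_cancel] at this
      linarith
    -- the element `y`
    set y : Qb := aeval x h * ((q : Qb) ^ N)⁻¹ with hy
    have hιy : ι y = aeval α h * ((q : Ω) ^ N)⁻¹ := by
      rw [hy, map_mul, map_inv₀, map_pow, map_natCast, hα, aeval_algHom_apply]
    have hισy : ι (σ y) = aeval α' h * ((q : Ω) ^ N)⁻¹ := by
      rw [hy, map_mul, map_inv₀, map_pow, map_natCast, map_mul, map_inv₀, map_pow, map_natCast,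
        hα', ← aeval_algHom_apply, ← aeval_algHom_apply]
    have hyP : y ∈ padicPlace q := by
      rw [mem_padicPlace_iff, ← NNReal.coe_le_coe, coe_nnnorm, NNReal.coe_one]
      show ‖ι y‖ ≤ 1
      rw [hιy, norm_mul, norm_inv, norm_pow, ← div_eq_mul_inv, div_le_one hεpos]
      exact h1.le
    have hσyP := hP y hyP
    rw [mem_padicPlace_iff, ← NNReal.coe_le_coe, coe_nnnorm, NNReal.coe_one] at hσyP
    have hσyP' : ‖ι (σ y)‖ ≤ 1 := hσyP
    rw [hισy, norm_mul, norm_inv, norm_pow, ← div_eq_mul_inv, div_le_one hεpos] at hσyP'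
    exact absurd hσyP' (not_le.2 h3)
  obtain ⟨τ, hτ⟩ := minpoly.exists_algEquiv_of_root' hαalg key
  refine ⟨τ, ?_⟩
  apply (padicEmbedding q).toRingHom.injective
  show padicEmbedding q (localGaloisToGlobal q τ x) = padicEmbedding q (σ x)
  rw [padicEmbedding_localGaloisToGlobal]
  exact hτ

/-- **Density**: for `σ` in the decomposition group of `padicPlace q` and `F/ℚ` finite there is
a local automorphism `τ` with `r τ = σ` on `F`. -/
theorem kill_exists_local_lift (σ : Qb ≃ₐ[ℚ] Qb)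
    (hσ : σ ∈ (padicPlace q).decompositionSubgroup ℚ)
    (F : IntermediateField ℚ Qb) [FiniteDimensional ℚ F] :
    ∃ τ : Ω ≃ₐ[ℚ_[q]] Ω, (localGaloisToGlobal q τ)⁻¹ * σ ∈ F.fixingSubgroup := by
  have hprim : ∃ α : F, @IntermediateField.adjoin ℚ _ F _ F.algebra' {α} = ⊤ := by
    have e : (DivisionRing.toRatAlgebra : Algebra ℚ F) = F.algebra' := Subsingleton.elim _ _
    rw [← e]
    exact Field.exists_primitive_element ℚ F
  obtain ⟨α, hα⟩ := hprim
  obtain ⟨τ, hτ⟩ := kill_exists_local_lift_apply q σ hσ (α : Qb)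
  refine ⟨τ, ?_⟩
  have hF : F = IntermediateField.adjoin ℚ {(α : Qb)} := by
    have h1 := IntermediateField.lift_adjoin_simple ℚ F α
    rw [hα, IntermediateField.lift_top] at h1
    exact h1
  set s : Qb ≃ₐ[ℚ] Qb := (localGaloisToGlobal q τ)⁻¹ * σ with hs
  have hsα : s (α : Qb) = (α : Qb) := by
    show (localGaloisToGlobal q τ)⁻¹ (σ (α : Qb)) = (α : Qb)
    rw [← hτ]
    show (localGaloisToGlobal q τ).symm (localGaloisToGlobal q τ (α : Qb)) = (α : Qb)
    exact (localGaloisToGlobal q τ).symm_apply_apply _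
  have hext : ((s : Qb →ₐ[ℚ] Qb).comp F.val) = F.val :=
    IntermediateField.algHom_ext_of_eq_adjoin ℚ hF (fun x hx => by
      rw [Set.mem_singleton_iff] at hx
      subst hx
      exact hsα)
  rw [IntermediateField.mem_fixingSubgroup_iff]
  intro y hy
  exact congrArg (fun f : F →ₐ[ℚ] Qb => f ⟨y, hy⟩) hext

end Fermat.Agent.S56
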