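import Fermat.Agent.S56.Local.Walls
import Fermat.Agent.F4.BR.LevelsBridge
import Fermat.Agent.F4.Glob.Fin.Main

/-!
# S56 / W1 / Kill / Fin : the classes unramified outside `S` are finitely many

For a finite smooth `k[G_S]`-module `N` (`k` of characteristic `p`), `unrOutside S N` is a finite set:
`killRes p hpk N` is `N` as an `𝔽_p[G_ℚ]`-module (same carrier, same cocycles, same
coboundaries), and `H¹(G_S, killRes N)` is finite (`F4Fin.finite_H1sm_levelsS`).
-/

set_option autoImplicit false

open CategoryTheory groupCohomology ExtCitation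

namespace Fermat.Agent.S56

open Fermat.Agent.F4

variable {k : Type} [Field k] (p : ℕ) [Fact p.Prime] (hpk : (p : k) = 0)

omit [Fact p.Prime] in
include hpk in
lemma kill_nsmul_eq_zero (N : Rep.{0} k GQ) (x : N) : p • x = 0 := by
  rw [← Nat.cast_smul_eq_nsmul k, hpk, zero_smul]

/-- `N` as a representation over `𝔽_p` (restriction of scalars; same carrier). -/
noncomputable def killRes (N : Rep.{0} k GQ) : Rep.{0} (ZMod p) GQ :=
  letI : Module (ZMod p) N := AddCommGroup.zmodModule (kill_nsmul_eq_zero p hpk N)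
  Rep.of (k := ZMod p) (G := GQ) (X := N)
    { toFun := fun g => (N.ρ g).toAddMonoidHom.toZModLinearMap p
      map_one' := by
        refine LinearMap.ext fun x => ?_
        show N.ρ 1 x = x
        rw [map_one]
        rfl
      map_mul' := fun g h => by
        refine LinearMap.ext fun x => ?_
        show N.ρ (g * h) x = N.ρ g (N.ρ h x)
        rw [map_mul]
        rfl }

variable (N : Rep.{0} k GQ)

lemma killRes_ρ_apply (g : GQ) (x : N) : (killRes p hpk N).ρ g x = N.ρ g x := rfl

lemma killRes_smooth (𝓤 : Levels GQ) (hN : IsSmooth 𝓤 N) : IsSmooth 𝓤 (killRes p hpk N) :=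
  fun a => hN a

lemma killRes_finite [Finite N] : Module.Finite (ZMod p) (killRes p hpk N) := by
  have : Finite (killRes p hpk N) := ‹Finite N›
  exact Module.Finite.of_finite

lemma killRes_mem_cocycles₁_iff (c : GQ → N) :
    c ∈ cocycles₁ (killRes p hpk N) ↔ c ∈ cocycles₁ N :=
  (mem_cocycles₁_iff (A := killRes p hpk N) c).trans (mem_cocycles₁_iff (A := N) c).symm

omit [Fact p.Prime] in
lemma kill_mem_B1_iff {R : Type} [CommRing R] (A : Rep.{0} R GQ) (c : GQ → A) :
    c ∈ B1 A ↔ ∃ a : A, ∀ g, c g = A.ρ g a - a := by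
  constructor
  · rintro ⟨a, rfl⟩
    exact ⟨a, fun g => d₀₁_hom_apply A a g⟩
  · rintro ⟨a, ha⟩
    refine ⟨a, ?_⟩
    funext g
    rw [ha g]
    exact d₀₁_hom_apply A a g

lemma killRes_mem_B1_iff (c : GQ → N) : c ∈ B1 (killRes p hpk N) ↔ c ∈ B1 N :=
  (kill_mem_B1_iff (killRes p hpk N) c).trans (kill_mem_B1_iff N c).symm

/-- A `levelsS S`-cocycle of `killRes N` as a cocycle of `N`. -/
noncomputable def killToAll (S : Finset Nat.Primes) (z : ↥(Z1 (levelsS S) (killRes p hpk N))) :
    ↥(Z1 levelsAll N) :=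
  ⟨z.1, (killRes_mem_cocycles₁_iff p hpk N z.1).1 z.2.1, by
    obtain ⟨U, hU, h⟩ := z.2.2
    exact ⟨U, levelsS_sets_subset S hU, h⟩⟩

include hpk in
/-- **Finiteness of `unrOutside`** for a finite smooth module. -/
theorem kill_finite_unrOutside (S : Finset Nat.Primes) [Finite N]
    (hN : IsSmooth (levelsS S) N) : (unrOutside S N : Set (H1sm levelsAll N)).Finite := by
  classical
  have hfin := Fermat.Agent.F4Fin.finite_H1sm_levelsS (p := p) S (killRes p hpk N)
    (killRes_smooth p hpk N _ hN) (killRes_finite p hpk N)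
  have hfin' : Finite (H1sm (levelsS S) (killRes p hpk N)) := Module.finite_of_finite (ZMod p)
  have hsurj := Submodule.Quotient.mk_surjective
    ((B1 (killRes p hpk N)).comap (Z1 (levelsS S) (killRes p hpk N)).subtype)
  let f : H1sm (levelsS S) (killRes p hpk N) → H1sm levelsAll N := fun x =>
    H1smπ levelsAll N (killToAll p hpk N S (Function.surjInv hsurj x))
  refine (Set.finite_range f).subset ?_
  rintro y ⟨c, hc, rfl⟩
  -- `c` as a cocycle of `killRes N`
  let c' : ↥(Z1 (levelsS S) (killRes p hpk N)) :=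
    ⟨c.1, (killRes_mem_cocycles₁_iff p hpk N c.1).2 c.2.1, hc⟩
  refine ⟨Submodule.Quotient.mk c', ?_⟩
  have h1 := Function.surjInv_eq hsurj (Submodule.Quotient.mk c')
  rw [Submodule.Quotient.eq] at h1
  show H1smπ levelsAll N (killToAll p hpk N S (Function.surjInv hsurj (Submodule.Quotient.mk c')))
    = H1smπ levelsAll N c
  show Submodule.Quotient.mk _ = Submodule.Quotient.mk _
  rw [Submodule.Quotient.eq]
  exact (killRes_mem_B1_iff p hpk N _).1 h1

end Fermat.Agent.S56
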