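import Fermat.Agent.S56.Local.Walls
import Fermat.Agent.S56.W1.Kill.Dense
import Fermat.Agent.F4.BR.Smooth
import Fermat.Agent.F4.BR.LevelsBridge
import Fermat.Agent.F4.Dict.PlaceSurj

/-!
# S56 / W1 / Kill / Vanish : cocycles which are locally trivial at `q`

`N` a representation of `G_ℚ`, `c` a cocycle, `q` a prime, `P = primeLocalPlace q`,
`r = primeLocalToGlobal q`.

* `kill_ad0Dual_ρ_eq_one` : `ρbar σ = 1` implies that `σ` acts trivially on `ad⁰ρbar^*(1)`;
* `killSub N c` : the subgroup `{σ | σ acts trivially on N, c σ = 0}`; it is normal;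
* `kill_apply_of_mem_decomposition` : if `c ∘ r` is the coboundary of `x` and `c` is constant on
  the cosets of an open subgroup acting trivially on `N`, then `c σ = σ x - x` for all `σ` in the
  decomposition group of `P` (density of the image of `r`);
* `kill_inertia_le` : then all the inertia groups over `q` lie in `killSub N c` if they act
  trivially on `N`.
-/

set_option autoImplicit false

open CategoryTheory groupCohomology ExtCitation
open scoped Pointwise

namespace Fermat.Agent.S56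

open Fermat.Agent.F4

variable {k : Type} [Field k]

/-- If `ρbar σ = 1` then `σ` acts trivially on `ad⁰ρbar^*(1)`. -/
theorem kill_ad0Dual_ρ_eq_one (ρbar : ResidualGaloisRep k) (σ : GQ) (h : ρbar.ρ σ = 1) :
    (ad0Dual ρbar).ρ σ = 1 := by
  have hinv : ρbar.ρ σ⁻¹ = 1 := by
    have := map_mul ρbar.ρ σ⁻¹ σ
    rw [inv_mul_cancel, map_one, h, mul_one] at this
    exact this.symm
  have hdet : ((detChar ρbar σ : kˣ) : k) = 1 := by
    show LinearMap.det (ρbar.ρ σ) = 1
    rw [h, map_one]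
  have had : (ad0 ρbar).ρ σ⁻¹ = 1 := by
    apply LinearMap.ext
    intro a
    apply Subtype.ext
    show ρbar.ρ σ⁻¹ * ((a : ↥(ad0Sub ρbar)).1 * ρbar.ρ σ⁻¹⁻¹) = (a : ↥(ad0Sub ρbar)).1
    rw [inv_inv, h, hinv, one_mul, mul_one]
  apply LinearMap.ext
  intro f
  show (ad0Dual ρbar).ρ σ f = f
  have e : (ad0Dual ρbar).ρ σ f = ((detChar ρbar σ : kˣ) : k) • (f ∘ₗ (ad0 ρbar).ρ σ⁻¹) := rfl
  rw [e, hdet, one_smul, had]
  rfl

section Sub

variable (N : Rep.{0} k GQ) (c : GQ → N) (hc : c ∈ cocycles₁ N)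

include hc in
lemma kill_cocycle_one : c 1 = 0 := cocycles₁_map_one (⟨c, hc⟩ : cocycles₁ N)

/-- The subgroup of the `σ` acting trivially on `N` with `c σ = 0`. -/
def killSub : Subgroup GQ where
  carrier := {σ | N.ρ σ = 1 ∧ c σ = 0}
  one_mem' := ⟨map_one _, kill_cocycle_one N c hc⟩
  mul_mem' := by
    rintro a b ⟨ha, ha'⟩ ⟨hb, hb'⟩
    refine ⟨by rw [map_mul, ha, hb, mul_one], ?_⟩
    rw [(mem_cocycles₁_iff c).1 hc a b, hb', ha', map_zero, add_zero]
  inv_mem' := by
    rintro a ⟨ha, ha'⟩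
    have hinv : N.ρ a⁻¹ = 1 := by
      have := map_mul N.ρ a⁻¹ a
      rw [inv_mul_cancel, map_one, ha, mul_one] at this
      exact this.symm
    refine ⟨hinv, ?_⟩
    have h1 := (mem_cocycles₁_iff c).1 hc a a⁻¹
    rw [mul_inv_cancel, kill_cocycle_one N c hc, ha, ha', add_zero] at h1
    exact h1.symm

lemma mem_killSub_iff (σ : GQ) : σ ∈ killSub N c hc ↔ N.ρ σ = 1 ∧ c σ = 0 := Iff.rfl

instance killSub_normal : (killSub N c hc).Normal := by
  refine ⟨fun s hs g => ?_⟩
  obtain ⟨hs1, hs2⟩ := hs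
  have hρ : N.ρ (g * s * g⁻¹) = 1 := by
    rw [map_mul, map_mul, hs1, mul_one, ← map_mul, mul_inv_cancel, map_one]
  refine ⟨hρ, ?_⟩
  have h1 := (mem_cocycles₁_iff c).1 hc (g * s * g⁻¹) g
  have e : g * s * g⁻¹ * g = g * s := by group
  rw [e, hρ, (mem_cocycles₁_iff c).1 hc g s, hs2, map_zero, zero_add] at h1
  -- `c g = c g + c (g s g⁻¹)`
  have h2 : c (g * s * g⁻¹) + c g = c g := by
    rw [add_comm]
    exact h1.symm
  exact add_eq_right.1 h2

include hc in
/-- `c` is constant on the cosets of `killSub`. -/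
lemma kill_apply_mul (g s : GQ) (hs : s ∈ killSub N c hc) : c (g * s) = c g := by
  rw [(mem_cocycles₁_iff c).1 hc g s, hs.2, map_zero, zero_add]

end Sub

section Local

variable (N : Rep.{0} k GQ) (c : GQ → N) (hc : c ∈ cocycles₁ N) (q : Nat.Primes)

include hc in
/-- If `c ∘ r` is the coboundary of `x` and `killSub N c` contains the fixing subgroup of a finite
extension, then `c σ = σ x - x` for every `σ` in the decomposition group of `primeLocalPlace q`. -/
theorem kill_apply_of_mem_decomposition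
    (F : IntermediateField ℚ (AlgebraicClosure ℚ)) [FiniteDimensional ℚ F]
    (hF : F.fixingSubgroup ≤ killSub N c hc) (x : N)
    (hx : ∀ h : primeLocalGaloisGroup q,
      c (primeLocalToGlobal q h) = N.ρ (primeLocalToGlobal q h) x - x)
    (σ : GQ) (hσ : σ ∈ (primeLocalPlace q).decompositionSubgroup ℚ) :
    c σ = N.ρ σ x - x := by
  have : Fact (q : ℕ).Prime := ⟨q.2⟩
  obtain ⟨τ, hτ⟩ := kill_exists_local_lift (q : ℕ) σ hσ F
  have hs := hF hτ
  set r : GQ := localGaloisToGlobal (q : ℕ) τ with hr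
  have e : σ = r * (r⁻¹ * σ) := by group
  have h1 : c σ = c r := by
    conv_lhs => rw [e]
    exact kill_apply_mul N c hc r _ hs
  have h2 : N.ρ σ = N.ρ r := by
    conv_lhs => rw [e]
    rw [map_mul, hs.1, mul_one]
  rw [h1, h2]
  exact hx τ

include hc in
/-- Under the hypotheses of `kill_apply_of_mem_decomposition`, the inertia groups over `q` which
act trivially on `N` lie in `killSub N c`. -/
theorem kill_inertia_le
    (F : IntermediateField ℚ (AlgebraicClosure ℚ)) [FiniteDimensional ℚ F]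
    (hF : F.fixingSubgroup ≤ killSub N c hc) (x : N)
    (hx : ∀ h : primeLocalGaloisGroup q,
      c (primeLocalToGlobal q h) = N.ρ (primeLocalToGlobal q h) x - x)
    (hN : ∀ A : ValuationSubring (AlgebraicClosure ℚ), A.LiesOverPrime (q : ℕ) →
      ∀ σ ∈ A.inertiaSubgroupIn ℚ, N.ρ σ = 1)
    (A : ValuationSubring (AlgebraicClosure ℚ)) (hA : A.LiesOverPrime (q : ℕ)) :
    A.inertiaSubgroupIn ℚ ≤ killSub N c hc := by
  intro σ hσ
  have hP : (primeLocalPlace q).LiesOverPrime (q : ℕ) := primeLocalPlace_liesOverPrime q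
  obtain ⟨g, hg⟩ := exists_smul_eq_of_liesOverPrime (primeLocalPlace q) A q.2 hP hA
  -- `σ' = g⁻¹ σ g` is in the inertia group of `P`
  have h1 : g⁻¹ * σ * g⁻¹⁻¹ ∈ (g⁻¹ • A).inertiaSubgroupIn ℚ :=
    br_conj_mem_inertiaSubgroupIn A g⁻¹ σ hσ
  rw [← hg, inv_smul_smul, inv_inv] at h1
  have hdec : g⁻¹ * σ * g ∈ (primeLocalPlace q).decompositionSubgroup ℚ := by
    obtain ⟨j, -, hj⟩ := h1
    rw [← hj]
    exact j.2
  have hρ : N.ρ (g⁻¹ * σ * g) = 1 := hN _ hP _ h1
  have hc' : c (g⁻¹ * σ * g) = 0 := by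
    rw [kill_apply_of_mem_decomposition N c hc q F hF x hx _ hdec, hρ]
    simp
  have hmem : g⁻¹ * σ * g ∈ killSub N c hc := ⟨hρ, hc'⟩
  have := (killSub_normal N c hc).conj_mem _ hmem g
  have e : g * (g⁻¹ * σ * g) * g⁻¹ = σ := by group
  rwa [e] at this

end Local

end Fermat.Agent.S56
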